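import Fermat.Agent.MW.Contracts

/-!
# MW / FORMAL 1: the formal identities for `τ, Λ, β, ψ`, `cls`, `Good`.
All statements are finite sum manipulations (`Finsupp.sum_add_index'` etc.).
-/

set_option autoImplicit false

namespace Fermat.Agent.MW

open AlgebraicCurve Fermat.Agent.Lib.RR

variable {F : Type*} [Field F] [Algebra Qb F]

theorem degR_add (D E : Divisor Qb F) : degR (D + E) = degR D + degR E := by
  rw [degR, degR, degR, map_add, Int.cast_add]

theorem degR_zero : degR (0 : Divisor Qb F) = 0 := by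
  rw [degR, map_zero, Int.cast_zero]

theorem Basic_wedge2_symm {K : Type*} [Field K] (a : AbsoluteValue K ℝ) {ι : Type*} (x y : ι → K) :
    wedge2 a x y = wedge2 a y x := by
  unfold wedge2
  congr 1
  funext p
  rw [← a.map_neg]
  congr 1
  ring

variable [IsFF Qb F] {S : Setup F} (Φ : Coord S) (A : AbsFam)

theorem Coord.tau_add (D E : Divisor Qb F) : Φ.tau A (D + E) = Φ.tau A D + Φ.tau A E := by
  unfold Coord.tau
  rw [Finsupp.sum_add_index']
  · intro P
    simp
  · intro P a b
    push_cast
    ring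

theorem Coord.tau_zero : Φ.tau A (0 : Divisor Qb F) = 0 := by
  exact Finsupp.sum_zero_index

theorem Coord.delL_symm (v : Plc) (P Q : Place Qb F) : Φ.delL A v P Q = Φ.delL A v Q P := by
  unfold Coord.delL
  rw [Basic_wedge2_symm, mul_comm]

theorem Coord.lamP_symm (P Q : Place Qb F) : Φ.lamP A P Q = Φ.lamP A Q P := by
  unfold Coord.lamP Coord.lamL
  simp_rw [Φ.delL_symm A _ P Q]

theorem Coord.Lam_add_left (D D' E : Divisor Qb F) :
    Φ.Lam A (D + D') E = Φ.Lam A D E + Φ.Lam A D' E := by
  unfold Coord.Lam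
  rw [Finsupp.sum_add_index']
  · intro P
    simp
  · intro P a b
    rw [← Finsupp.sum_add]
    refine Finsupp.sum_congr fun Q _ => ?_
    push_cast
    ring

theorem Coord.Lam_add_right (D E E' : Divisor Qb F) :
    Φ.Lam A D (E + E') = Φ.Lam A D E + Φ.Lam A D E' := by
  unfold Coord.Lam
  rw [← Finsupp.sum_add]
  refine Finsupp.sum_congr fun P _ => ?_
  rw [Finsupp.sum_add_index']
  · intro Q
    simp
  · intro Q a b
    push_cast
    ring

theorem Coord.Lam_symm (D E : Divisor Qb F) : Φ.Lam A D E = Φ.Lam A E D := by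
  unfold Coord.Lam
  rw [Finsupp.sum_comm]
  refine Finsupp.sum_congr fun P _ => ?_
  refine Finsupp.sum_congr fun Q _ => ?_
  rw [Φ.lamP_symm A Q P, mul_comm ((D Q : ℤ) : ℝ)]

theorem Coord.Lam_zero_left (E : Divisor Qb F) : Φ.Lam A 0 E = 0 := by
  exact Finsupp.sum_zero_index

theorem Coord.beta_add_right (D E E' : Divisor Qb F) :
    Φ.beta A D (E + E') = Φ.beta A D E + Φ.beta A D E' := by
  unfold Coord.beta
  rw [degR_add, Φ.tau_add, Φ.Lam_add_right]
  ring

/-- the fundamental identity. -/
theorem Coord.psi_add (D E : Divisor Qb F) :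
    Φ.psi A (D + E) = Φ.psi A D + Φ.psi A E + Φ.beta A D E := by
  unfold Coord.psi Coord.beta
  rw [degR_add, Φ.tau_add, Φ.Lam_add_left, Φ.Lam_add_right, Φ.Lam_add_right, Φ.Lam_symm A E D]
  ring

theorem Coord.psi_zero : Φ.psi A (0 : Divisor Qb F) = 0 := by
  unfold Coord.psi
  rw [Φ.tau_zero, Φ.Lam_zero_left]
  ring

theorem Setup.cls_add (S : Setup F) (D E : Divisor Qb F) : S.cls (D + E) = S.cls D + S.cls E := by
  unfold Setup.cls
  rw [← Pic0.mk_add]
  refine congrArg Pic0.mk (Subtype.ext ?_)
  show D + E - Finsupp.single S.inf (Divisor.degree (D + E)) =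
    (D - Finsupp.single S.inf (Divisor.degree D)) + (E - Finsupp.single S.inf (Divisor.degree E))
  rw [map_add, Finsupp.single_add]
  abel

theorem Setup.cls_zero (S : Setup F) : S.cls (0 : Divisor Qb F) = 0 := by
  unfold Setup.cls
  rw [← Pic0.mk_zero]
  refine congrArg Pic0.mk (Subtype.ext ?_)
  show (0 : Divisor Qb F) - Finsupp.single S.inf (Divisor.degree (0 : Divisor Qb F)) = 0
  rw [map_zero, Finsupp.single_zero, sub_zero]

theorem good_zero (S : Setup F) : Good S 0 (0 : Divisor Qb F) where
  fixed := fun σ => smul_zero _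
  off := rfl
  nonneg := le_rfl
  deg := by simp
  red := fun P => by simp

theorem Good.add {e e' : ℕ} {Y Y' : Divisor Qb F} (h : Good S e Y) (h' : Good S e' Y')
    (hd : Disjoint Y.support Y'.support) : Good S (e + e') (Y + Y') where
  fixed := fun σ => by rw [smul_add, h.fixed σ, h'.fixed σ]
  off := by rw [Finsupp.add_apply, h.off, h'.off, add_zero]
  nonneg := add_nonneg h.nonneg h'.nonneg
  deg := by
    rw [map_add, h.deg, h'.deg]
    push_cast
    rfl
  red := fun P => by
    rw [Finsupp.add_apply]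
    by_cases hP : P ∈ Y.support
    · have hP' : P ∉ Y'.support := Finset.disjoint_left.mp hd hP
      rw [Finsupp.notMem_support_iff.mp hP', add_zero]
      exact h.red P
    · rw [Finsupp.notMem_support_iff.mp hP, zero_add]
      exact h'.red P

/-- the class of a rational divisor is a rational point. -/
theorem IsRat.cls_mem {D : Divisor Qb F} (h : IsRat S D) : S.cls D ∈ S.ratPts := by
  intro σ
  unfold Setup.cls
  rw [SemilinearAut.pic0_smul_mk]
  refine congrArg Pic0.mk (Subtype.ext ?_)
  rw [SemilinearAut.coe_degZeroSMulHom]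
  show S.ρ σ • (D - Finsupp.single S.inf (Divisor.degree D)) =
    D - Finsupp.single S.inf (Divisor.degree D)
  rw [smul_sub, h.fixed σ, SemilinearAut.smul_single, S.inf_fixed σ]

end Fermat.Agent.MW
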