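import Fermat.Agent.MW.Formal.Basic

/-!
# MW / FORMAL 2: from the five global contracts to `S17.HeightStmt`.

`e := e₀` of `MoveStmt`; `rep x` a good divisor of degree `e` and class `x`; `hp x := ψ (rep x)`.
* `hp_quad` : `|hp (x+y) + hp (x-y) - 2 hp x - hp y - hp (-y)| ≤ C`.
  Take `X, Y, Y'` good of degree `e`, pairwise disjoint, of classes `x, y, -y`. By `psi_add`,
  `ψ(X+Y) + ψ(X+Y') = 2ψ(X) + ψ(Y) + ψ(Y') + β(X, Y+Y')` and
  `ψ(X+(Y+Y')) = ψ(X) + ψ(Y+Y') + β(X, Y+Y')`; by `InvStmt`, `ψ(X+Y+Y') = ψ(X) + O(1)` (same class),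
  `ψ(Y+Y') = ψ(0) + O(1) = O(1)`, so `β(X, Y+Y') = O(1)`; again by `InvStmt` `ψ(X+Y) = hp (x+y) + O(1)`, ...
* `hp_lower`, `hp_northcott` : from `SiegelStmt`, `TauLowerStmt`, `NorthcottStmt`.
* `h x := hp x + hp (-x) + const`.
-/

set_option autoImplicit false

namespace Fermat.Agent.MW

open AlgebraicCurve Fermat.Agent.Lib.RR

variable {F : Type*} [Field F] [Algebra Qb F] [IsFF Qb F] {S : Setup F} (Φ : Coord S) (A : AbsFam)

/-- `β(X, Z) = O(1)` if `Z` has class `0`. -/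
theorem beta_bounded (hI : InvStmt Φ A) (e e' : ℕ) : ∃ C : ℝ, ∀ X Z : Divisor Qb F,
    Good S e X → Good S e' Z → Disjoint X.support Z.support → S.cls Z = 0 →
      |Φ.beta A X Z| ≤ C := by
  obtain ⟨C1, hC1⟩ := hI (e + e') e
  obtain ⟨C2, hC2⟩ := hI e' 0
  refine ⟨C1 + C2, fun X Z hX hZ hd hcl => ?_⟩
  have h1 := hC1 (X + Z) X (hX.add hZ hd) hX (by rw [S.cls_add, hcl, add_zero])
  have h2 := hC2 Z 0 hZ (good_zero S) (by rw [hcl, S.cls_zero])
  rw [Φ.psi_zero A, sub_zero] at h2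
  have h3 : Φ.beta A X Z = (Φ.psi A (X + Z) - Φ.psi A X) - Φ.psi A Z := by
    rw [Φ.psi_add A X Z]
    ring
  rw [h3]
  exact (abs_sub _ _).trans (add_le_add h1 h2)

/-- the parallelogram law on divisors. -/
theorem psi_quad (hI : InvStmt Φ A) (e : ℕ) : ∃ C : ℝ, ∀ X Y Y' : Divisor Qb F,
    Good S e X → Good S e Y → Good S e Y' → Disjoint X.support Y.support →
    Disjoint X.support Y'.support → Disjoint Y.support Y'.support → S.cls Y' = - S.cls Y →
      |Φ.psi A (X + Y) + Φ.psi A (X + Y') - 2 * Φ.psi A X - Φ.psi A Y - Φ.psi A Y'| ≤ C := by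
  classical
  obtain ⟨C, hC⟩ := beta_bounded Φ A hI e (e + e)
  refine ⟨C, fun X Y Y' hX hY hY' hXY hXY' hYY' hcl => ?_⟩
  have hd : Disjoint X.support (Y + Y').support :=
    Finset.disjoint_of_subset_right Finsupp.support_add (Finset.disjoint_union_right.mpr ⟨hXY, hXY'⟩)
  have h1 := hC X (Y + Y') hX (hY.add hY' hYY') hd (by rw [S.cls_add, hcl, add_neg_cancel])
  have h2 : Φ.psi A (X + Y) + Φ.psi A (X + Y') - 2 * Φ.psi A X - Φ.psi A Y - Φ.psi A Y' =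
      Φ.beta A X (Y + Y') := by
    rw [Φ.psi_add A X Y, Φ.psi_add A X Y', Φ.beta_add_right A X Y Y']
    ring
  rw [h2]
  exact h1

/-- three pairwise disjoint representatives. -/
theorem exists_three (e : ℕ) (hM : ∀ x ∈ S.ratPts, ∀ T : Finset (Place Qb F),
      ∃ Y : Divisor Qb F, Good S e Y ∧ S.cls Y = x ∧ Disjoint Y.support T)
    {x y : Pic0 Qb F} (hx : x ∈ S.ratPts) (hy : y ∈ S.ratPts) :
    ∃ X Y Y' : Divisor Qb F, Good S e X ∧ Good S e Y ∧ Good S e Y' ∧ S.cls X = x ∧ S.cls Y = y ∧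
      S.cls Y' = - y ∧ Disjoint X.support Y.support ∧ Disjoint X.support Y'.support ∧
      Disjoint Y.support Y'.support := by
  classical
  obtain ⟨X, hX, hXc, -⟩ := hM x hx ∅
  obtain ⟨Y, hY, hYc, hYd⟩ := hM y hy X.support
  obtain ⟨Y', hY', hYc', hYd'⟩ := hM (-y) (S.ratPts.neg_mem hy) (X.support ∪ Y.support)
  rw [Finset.disjoint_union_right] at hYd'
  exact ⟨X, Y, Y', hX, hY, hY', hXc, hYc, hYc', hYd.symm, hYd'.1.symm, hYd'.2.symm⟩

/-- An abstract lemma: a function with the non symmetric parallelogram law, bounded below, with the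
Northcott property gives `HeightStmt`. -/
theorem heightStmt_of_quad {G : Type*} [AddCommGroup G] (hp : G → ℝ) (C₀ C₁ : ℝ)
    (hlow : ∀ x, - C₀ ≤ hp x)
    (hquad : ∀ x y, |hp (x + y) + hp (x - y) - 2 * hp x - hp y - hp (-y)| ≤ C₁)
    (hN : ∀ B : ℝ, {x | hp x ≤ B}.Finite) : S17.HeightStmt G := by
  refine ⟨fun x => hp x + hp (-x) + 2 * C₀, fun x => ?_, ⟨2 * C₁ + 4 * |C₀|, fun x y => ?_⟩,
    fun B => ?_⟩
  · have h1 := hlow x
    have h2 := hlow (-x)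
    show 0 ≤ hp x + hp (-x) + 2 * C₀
    linarith
  · have h1 := hquad x y
    have h2 := hquad (-x) (-y)
    rw [neg_neg] at h2
    have e1 : -(x + y) = -x + -y := by abel
    have e2 : -(x - y) = -x - -y := by abel
    show |hp (x + y) + hp (-(x + y)) + 2 * C₀ + (hp (x - y) + hp (-(x - y)) + 2 * C₀) -
      2 * (hp x + hp (-x) + 2 * C₀ + (hp y + hp (-y) + 2 * C₀))| ≤ 2 * C₁ + 4 * |C₀|
    rw [e1, e2]
    rw [abs_le] at h1 h2 ⊢
    have h3 := le_abs_self C₀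
    have h4 := neg_abs_le C₀
    constructor <;> linarith [h1.1, h1.2, h2.1, h2.2]
  · refine (hN (B - C₀)).subset fun x hx => ?_
    have h1 : hp x + hp (-x) + 2 * C₀ ≤ B := hx
    have h2 := hlow (-x)
    show hp x ≤ B - C₀
    linarith

/-- **FORMAL**: the five global contracts give the height machine for `J(ℚ)`. -/
theorem heightStmt_of_contracts (hI : InvStmt Φ A) (hS : SiegelStmt Φ A) (hL : TauLowerStmt Φ A)
    (hN : NorthcottStmt Φ A) (hM : MoveStmt S) : S17.HeightStmt S.ratPts := by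
  obtain ⟨e, hM⟩ := hM
  have hM' := hM e le_rfl
  have hrep : ∀ x : S.ratPts, ∃ Y : Divisor Qb F, Good S e Y ∧ S.cls Y = x := fun x => by
    obtain ⟨Y, h1, h2, -⟩ := hM' x x.2 ∅
    exact ⟨Y, h1, h2⟩
  choose rep hgood hcls using hrep
  obtain ⟨Cq, hCq⟩ := psi_quad Φ A hI e
  obtain ⟨C2, hC2⟩ := hI (e + e) e
  obtain ⟨C3, hC3⟩ := hI e e
  obtain ⟨d, r, Cs, hr, hSie⟩ := hS e
  obtain ⟨Cl, hCl⟩ := hL d
  have hr0 : (0 : ℝ) < r := by exact_mod_cast hr
  refine heightStmt_of_quad (fun x : S.ratPts => Φ.psi A (rep x)) (r * Cl + Cs)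
    (Cq + 2 * C2 + 4 * C3) (fun x => ?_) (fun x y => ?_) (fun B => ?_)
  · obtain ⟨d', Z, hd', hZ, -, hle⟩ := hSie (rep x) (hgood x)
    have h1 := hCl d' Z hd' hZ
    have h2 : (r : ℝ) * (-Cl) ≤ r * Φ.tau A Z := mul_le_mul_of_nonneg_left h1 hr0.le
    show -(r * Cl + Cs) ≤ Φ.psi A (rep x)
    linarith
  · obtain ⟨X, Y, Y', gX, gY, gY', cX, cY, cY', dXY, dXY', dYY'⟩ :=
      exists_three e hM' x.2 y.2
    have h0 := hCq X Y Y' gX gY gY' dXY dXY' dYY' (by rw [cY', cY])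
    have h1 := hC2 (X + Y) (rep (x + y)) (gX.add gY dXY) (hgood _) (by
      rw [S.cls_add, cX, cY, hcls]; rfl)
    have h2 := hC2 (X + Y') (rep (x - y)) (gX.add gY' dXY') (hgood _) (by
      rw [S.cls_add, cX, cY', hcls, ← sub_eq_add_neg]; rfl)
    have h3 := hC3 X (rep x) gX (hgood _) (by rw [cX, hcls])
    have h4 := hC3 Y (rep y) gY (hgood _) (by rw [cY, hcls])
    have h5 := hC3 Y' (rep (-y)) gY' (hgood _) (by rw [cY', hcls]; rfl)
    show |Φ.psi A (rep (x + y)) + Φ.psi A (rep (x - y)) - 2 * Φ.psi A (rep x) - Φ.psi A (rep y) -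
      Φ.psi A (rep (-y))| ≤ Cq + 2 * C2 + 4 * C3
    rw [abs_le] at h0 h1 h2 h3 h4 h5 ⊢
    constructor <;>
      linarith [h0.1, h0.2, h1.1, h1.2, h2.1, h2.2, h3.1, h3.2, h4.1, h4.2, h5.1, h5.2]
  · have hfin := hN d ((B + Cs) / r)
    have hfin2 := (hfin.image fun Z => - S.cls Z).preimage
      (Subtype.val_injective.injOn : Set.InjOn (Subtype.val : S.ratPts → Pic0 Qb F) _)
    refine hfin2.subset fun x hx => ?_
    have hx' : Φ.psi A (rep x) ≤ B := hx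
    obtain ⟨d', Z, hd', hZ, hc, hle⟩ := hSie (rep x) (hgood x)
    refine ⟨Z, ⟨d', hd', hZ, ?_⟩, ?_⟩
    · rw [le_div_iff₀ hr0]
      linarith
    · show - S.cls Z = (x : Pic0 Qb F)
      rw [hc, neg_neg, hcls]

end Fermat.Agent.MW
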